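import Fermat.Agent.S48.Defs

/-!
# S48, mountain B (`Stmt_ResRep`): interfaces (helper43)

Plan: `NOTES/plan/W_S48_B.md`.

`Stmt_ResRep` ⟸ `Stmt_EisLift` + `Stmt_TatePieceH` + `Stmt_SmallPieceL` + `Stmt_DirCharL`
(+ Chebotarev, proved): `B.H43.resRep_of` (`S48/B/H43_Wiring.lean`).

* `IsEigenvec2 M χ G b` : `G ≠ 0` is a weight two cusp form on `Γ₁(M)` whose `q`-coefficients
  satisfy `a_{pn} + χ(p) p a_{n/p} = b_p a_n` for all primes `p ∤ M` (an eigenvector of the `T_p`
  with nebentypus `χ`; NOT normalised: `a_1` may vanish);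
* `Stmt_EisLift`     (B1) Deligne–Serre §6: `f · E_{1,ω⁻¹}` and the lifting lemma 6.11: for large `ℓ`
                     a weight two eigenvector of level `N ℓ` congruent to `f` under `φ`;
* `Stmt_TatePieceH`  (B2, the geometry of `X₁(M)`): a weight two eigenvector with character has a
                     nonzero Eichler–Shimura piece mod `ℓ`;
* `Stmt_SmallPieceL` (B3, linear algebra in characteristic `≠ 2`): cut out dimension two;
* `Stmt_DirCharL`    (B4) the Galois character of a Dirichlet character, reduced by `φ`.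
-/

set_option autoImplicit false

open CongruenceSubgroup
open scoped MatrixGroups

namespace Fermat.Agent.S48.B

local notation "Γℚ" => (AlgebraicClosure ℚ ≃ₐ[ℚ] AlgebraicClosure ℚ)

/-- `G ≠ 0` is an eigenvector of the Hecke operators `T_p`, `p ∤ M`, with eigenvalues `b p` and
nebentypus `χ`, in terms of `q`-coefficients (weight two). -/
structure IsEigenvec2 (M : ℕ) [NeZero M] (χ : DirichletCharacter ℂ M)
    (G : CuspForm (Gamma1 M) 2) (b : ℕ → ℂ) : Prop where
  ne_zero : G ≠ 0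
  hecke : ∀ p : ℕ, p.Prime → ¬ p ∣ M → ∀ n : ℕ,
    ModularFormClass.qCoeff G (p * n) +
        χ (p : ZMod M) * (p : ℂ) * (if p ∣ n then ModularFormClass.qCoeff G (n / p) else 0) =
      b p * ModularFormClass.qCoeff G n

/-- **(B1) EisLift** (Deligne–Serre §6): for all large `ℓ` and every residue map `φ` there is a
weight two eigenvector `G` of level `N ℓ` with a character `χ`, whose eigenvalues `b_p` and
`χ(p) p` are algebraic integers congruent to `a_p(f)` and `ε(p)` under `φ`. -/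
def Stmt_EisLift : Prop :=
  ∀ (N : ℕ) [NeZero N] (ε : DirichletCharacter ℂ N) (f : CuspForm (Gamma1 N) 1),
    IsDSForm N ε f →
      ∃ ℓ₀ : ℕ, ∀ (ℓ : ℕ) [NeZero (N * ℓ)], ℓ.Prime → ℓ₀ ≤ ℓ →
        ∀ (k : Type) [Field k] [CharP k ℓ] [IsAlgClosed k] (φ : integralClosure ℤ ℂ →+* k),
          ∃ (χ : DirichletCharacter ℂ (N * ℓ)) (G : CuspForm (Gamma1 (N * ℓ)) 2) (b : ℕ → ℂ),
            IsEigenvec2 (N * ℓ) χ G b ∧
            ∀ p : ℕ, p.Prime → ¬ p ∣ N * ℓ →
              ∃ β c : integralClosure ℤ ℂ, (β : ℂ) = b p ∧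
                (c : ℂ) = χ (p : ZMod (N * ℓ)) * (p : ℂ) ∧
                (∀ a : integralClosure ℤ ℂ, (a : ℂ) = ModularFormClass.qCoeff f p → φ β = φ a) ∧
                (∀ e : integralClosure ℤ ℂ, (e : ℂ) = ε (p : ZMod N) → φ c = φ e)

/-- **(B2) TatePieceH** (Eichler–Shimura for `X₁(M)`, mod `ℓ`): a weight two eigenvector with
character `χ` on `Γ₁(M)` has, for every prime `ℓ` and every residue map `φ`, a nonzero
representation of finite level over `k`, unramified outside `M ℓ`, on which every Frobenius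
element `F` at `p ∤ M ℓ` satisfies `F² - φ(b_p) F + φ(χ(p) p) = 0`. -/
def Stmt_TatePieceH : Prop :=
  ∀ (M : ℕ) [NeZero M] (χ : DirichletCharacter ℂ M) (G : CuspForm (Gamma1 M) 2) (b : ℕ → ℂ),
    IsEigenvec2 M χ G b →
      ∀ ℓ : ℕ, ℓ.Prime →
        ∀ (k : Type) [Field k] [CharP k ℓ] [IsAlgClosed k] (φ : integralClosure ℤ ℂ →+* k),
          ∃ (r : ℕ) (ρ : Γℚ →* GL (Fin r) k), 0 < r ∧ GaloisFactorsThroughFiniteLevel ρ ∧
            ∀ p : ℕ, p.Prime → ¬ p ∣ M * ℓ →
              ∀ A : ValuationSubring (AlgebraicClosure ℚ), A.LiesOverPrime p →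
                (∀ σ ∈ A.inertiaSubgroupIn ℚ, ρ σ = 1) ∧
                ∀ σ : Γℚ, A.IsFrobeniusAt σ p → ∀ β c : integralClosure ℤ ℂ,
                  (β : ℂ) = b p → (c : ℂ) = χ (p : ZMod M) * (p : ℂ) →
                    ((ρ σ : GL (Fin r) k) : Matrix (Fin r) (Fin r) k) *
                        ((ρ σ : GL (Fin r) k) : Matrix (Fin r) (Fin r) k) -
                      φ β • ((ρ σ : GL (Fin r) k) : Matrix (Fin r) (Fin r) k) +
                      φ c • (1 : Matrix (Fin r) (Fin r) k) = 0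

/-- **(B3) SmallPieceL**: over an algebraically closed field in which `2 ≠ 0`, a representation
all of whose elements satisfy a monic quadratic with constant term a character `θ` contains (up
to semisimplification) a two-dimensional representation with these quadratics as characteristic
polynomials. -/
def Stmt_SmallPieceL : Prop :=
  ∀ (k : Type) [Field k] [IsAlgClosed k], (2 : k) ≠ 0 →
    ∀ (Γ : Type) [Group Γ] (r : ℕ), 0 < r →
      ∀ (ρ : Γ →* GL (Fin r) k) (θ : Γ →* kˣ) (a : Γ → k),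
        (∀ g : Γ, ((ρ g : GL (Fin r) k) : Matrix (Fin r) (Fin r) k) *
            ((ρ g : GL (Fin r) k) : Matrix (Fin r) (Fin r) k) -
          a g • ((ρ g : GL (Fin r) k) : Matrix (Fin r) (Fin r) k) +
          ((θ g : kˣ) : k) • (1 : Matrix (Fin r) (Fin r) k) = 0) →
        ∃ ρ₂ : Γ →* GL (Fin 2) k, (∀ g : Γ, ρ g = 1 → θ g = 1 → ρ₂ g = 1) ∧
          ∀ g : Γ, ((ρ₂ g : GL (Fin 2) k) : Matrix (Fin 2) (Fin 2) k).trace = a g ∧
            ((ρ₂ g : GL (Fin 2) k) : Matrix (Fin 2) (Fin 2) k).det = ((θ g : kˣ) : k)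

/-- **(B4) DirCharL**: the Galois character attached to a Dirichlet character `ε` mod `N`,
reduced by `φ`: of finite level, unramified outside `N`, `θ(Frob_p) = φ(ε(p))`. -/
def Stmt_DirCharL : Prop :=
  ∀ (N : ℕ) [NeZero N] (ε : DirichletCharacter ℂ N) (k : Type) [Field k]
    (φ : integralClosure ℤ ℂ →+* k),
    ∃ θ : Γℚ →* kˣ, GaloisFactorsThroughFiniteLevel θ ∧
      ∀ p : ℕ, p.Prime → ¬ p ∣ N →
        ∀ A : ValuationSubring (AlgebraicClosure ℚ), A.LiesOverPrime p →
          (∀ σ ∈ A.inertiaSubgroupIn ℚ, θ σ = 1) ∧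
          ∀ σ : Γℚ, A.IsFrobeniusAt σ p → ∀ e : integralClosure ℤ ℂ,
            (e : ℂ) = ε (p : ZMod N) → ((θ σ : kˣ) : k) = φ e

end Fermat.Agent.S48.B
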