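import Mathlib
import Fermat.Agent.S48.B.Defs
import Fermat.Agent.R.H89_FrobCyc

/-!
# S48, mountain B, leaf B4 = `Stmt_DirCharL` (helper22)

The Galois character of a Dirichlet character `ε` mod `N`, reduced along an arbitrary ring
homomorphism `φ : ℤ̄ → k`: `θ = φ ∘ ε ∘ κ_N`, where `κ_N : Γℚ → (ℤ/N)ˣ` is the cyclotomic
character mod `N`.

Main result: `Fermat.Agent.S48.B.H22.stmt_DirCharL : Stmt_DirCharL`.
-/

set_option autoImplicit false

namespace Fermat.Agent.S48.B.H22

local notation "Γℚ" => (AlgebraicClosure ℚ ≃ₐ[ℚ] AlgebraicClosure ℚ)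

/-- The cyclotomic character mod `N` on `Γℚ`. -/
noncomputable def kappa (N : ℕ) [NeZero N] : Γℚ →* (ZMod N)ˣ :=
  MonoidHom.mk'
    (fun σ => modularCyclotomicCharacter (AlgebraicClosure ℚ)
      (HasEnoughRootsOfUnity.natCard_rootsOfUnity (AlgebraicClosure ℚ) N)
      (σ : AlgebraicClosure ℚ ≃+* AlgebraicClosure ℚ))
    (fun a b => by rw [← map_mul]; congr 1)

theorem kappa_apply (N : ℕ) [NeZero N] (σ : Γℚ) :
    kappa N σ = modularCyclotomicCharacter (AlgebraicClosure ℚ)
      (HasEnoughRootsOfUnity.natCard_rootsOfUnity (AlgebraicClosure ℚ) N)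
      (σ : AlgebraicClosure ℚ ≃+* AlgebraicClosure ℚ) := rfl

/-- Characterisation of `kappa`: if `σ` raises every `N`-th root of unity to the power `m`,
then `κ(σ) = m mod N`. -/
theorem kappa_eq_of_pow (N : ℕ) [NeZero N] (σ : Γℚ) (m : ℕ)
    (h : ∀ t : AlgebraicClosure ℚ, t ^ N = 1 → σ t = t ^ m) :
    ((kappa N σ : (ZMod N)ˣ) : ZMod N) = (m : ZMod N) := by
  rw [kappa_apply]
  symm
  apply modularCyclotomicCharacter.unique
  intro t ht
  have ht1 : ((t : (AlgebraicClosure ℚ)ˣ) : AlgebraicClosure ℚ) ^ N = 1 := by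
    have := (mem_rootsOfUnity N t).1 ht
    rw [← Units.val_pow_eq_pow_val, this, Units.val_one]
  have h1 := h _ ht1
  rw [ZMod.val_natCast]
  change σ (t : AlgebraicClosure ℚ) = _
  rw [h1]
  exact pow_eq_pow_mod m ht1

/-- If `σ` fixes every `N`-th root of unity then `κ(σ) = 1`. -/
theorem kappa_eq_one_of_fix (N : ℕ) [NeZero N] (σ : Γℚ)
    (h : ∀ t : AlgebraicClosure ℚ, t ^ N = 1 → σ t = t) : kappa N σ = 1 := by
  apply Units.ext
  rw [kappa_eq_of_pow N σ 1 (fun t ht => by rw [h t ht, pow_one])]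
  simp

/-- The values of a Dirichlet character on units are integral. -/
theorem isIntegral_dirichlet {N : ℕ} [NeZero N] (ε : DirichletCharacter ℂ N) (u : (ZMod N)ˣ) :
    IsIntegral ℤ (ε (u : ZMod N)) := by
  have hpow : ε (u : ZMod N) ^ (Fintype.card (ZMod N)ˣ) = 1 := by
    rw [← map_pow, ← Units.val_pow_eq_pow_val, pow_card_eq_one, Units.val_one, map_one]
  have hpos : 0 < Fintype.card (ZMod N)ˣ := Fintype.card_pos
  exact IsIntegral.of_pow hpos (by rw [hpow]; exact isIntegral_one)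

/-- The Dirichlet character as a monoid homomorphism into the ring of algebraic integers. -/
noncomputable def etaHom {N : ℕ} [NeZero N] (ε : DirichletCharacter ℂ N) :
    (ZMod N)ˣ →* integralClosure ℤ ℂ where
  toFun u := ⟨ε (u : ZMod N), isIntegral_dirichlet ε u⟩
  map_one' := by
    apply Subtype.ext
    simp
  map_mul' u v := by
    apply Subtype.ext
    simp

theorem etaHom_coe {N : ℕ} [NeZero N] (ε : DirichletCharacter ℂ N) (u : (ZMod N)ˣ) :
    ((etaHom ε u : integralClosure ℤ ℂ) : ℂ) = ε (u : ZMod N) := rfl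

/-- The Galois character `θ = φ ∘ ε ∘ κ_N`. -/
noncomputable def theta {N : ℕ} [NeZero N] (ε : DirichletCharacter ℂ N) {k : Type} [Field k]
    (φ : integralClosure ℤ ℂ →+* k) : Γℚ →* kˣ :=
  ((φ : integralClosure ℤ ℂ →* k).comp (etaHom ε)).toHomUnits.comp (kappa N)

theorem theta_coe {N : ℕ} [NeZero N] (ε : DirichletCharacter ℂ N) {k : Type} [Field k]
    (φ : integralClosure ℤ ℂ →+* k) (σ : Γℚ) :
    ((theta ε φ σ : kˣ) : k) = φ (etaHom ε (kappa N σ)) := rfl

theorem theta_eq_one_of_fix {N : ℕ} [NeZero N] (ε : DirichletCharacter ℂ N) {k : Type} [Field k]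
    (φ : integralClosure ℤ ℂ →+* k) (σ : Γℚ)
    (h : ∀ t : AlgebraicClosure ℚ, t ^ N = 1 → σ t = t) : theta ε φ σ = 1 := by
  unfold theta
  rw [MonoidHom.comp_apply, kappa_eq_one_of_fix N σ h, map_one]

/-- **Leaf B4 = `Stmt_DirCharL`.** -/
theorem stmt_DirCharL : Stmt_DirCharL := by
  intro N _ ε k _ φ
  refine ⟨theta ε φ, ?_, ?_⟩
  · -- finite level
    obtain ⟨ζ, hζ⟩ := HasEnoughRootsOfUnity.exists_primitiveRoot (AlgebraicClosure ℚ) N
    refine ⟨IntermediateField.adjoin ℚ {ζ}, ?_, ?_⟩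
    · exact IntermediateField.adjoin.finiteDimensional ((AlgebraicClosure.isAlgebraic ℚ).isAlgebraic ζ).isIntegral
    · intro σ hσ
      apply theta_eq_one_of_fix
      intro t ht
      obtain ⟨i, -, rfl⟩ := hζ.eq_pow_of_pow_eq_one ht
      rw [map_pow, hσ ζ (IntermediateField.mem_adjoin_simple_self ℚ ζ)]
  · intro p hp hpN A hA
    have hcop : N.Coprime p := ((Nat.Prime.coprime_iff_not_dvd hp).2 hpN).symm
    refine ⟨?_, ?_⟩
    · intro σ hσ
      apply theta_eq_one_of_fix
      intro t ht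
      exact Fermat.Agent.R.H89.inertia_fixes_rootsOfUnity p A hA σ hσ N hcop t ht
    · intro σ hσ e he
      rw [theta_coe]
      congr 1
      apply Subtype.ext
      rw [etaHom_coe, he]
      congr 1
      exact kappa_eq_of_pow N σ p
        (fun t ht => Fermat.Agent.R.H89.stmt_FrobCyc p hp A hA σ hσ N hcop t ht)

end Fermat.Agent.S48.B.H22
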