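import Fermat.Agent.S48.B.Defs
import Fermat.Agent.S48.Asm.H43_Lemmas

/-!
# S48, mountain B: wiring (helper43)

`resRep_of : Stmt_EisLift → Stmt_TatePieceH → Stmt_SmallPieceL → Stmt_DirCharL → Stmt_ChebSet →
  Stmt_ResRep`.

The Eichler–Shimura piece `ρ` (any rank) of the lifted eigenvector and the Galois character `θ`
of `ε` satisfy `ρ(F)² - φ(a_p) ρ(F) + θ(F) = 0` at all Frobenius elements outside `N ℓ`; by
Chebotarev every element of `Γℚ` satisfies such a quadratic; `SmallPieceL` cuts out dimension two.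
-/

set_option autoImplicit false
set_option linter.unusedSectionVars false
set_option linter.style.haveILetI false

open CongruenceSubgroup
open scoped MatrixGroups

namespace Fermat.Agent.S48.B.H43

open Fermat.Agent.S48.Asm Fermat.Agent.S48.Asm.H43

local notation "Γℚ" => (AlgebraicClosure ℚ ≃ₐ[ℚ] AlgebraicClosure ℚ)

/-- The product of two homomorphisms of finite level has finite level. -/
lemma finiteLevel_prod' {M M' : Type} [Group M] [Group M'] (ρ : Γℚ →* M) (ρ' : Γℚ →* M')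
    (h : GaloisFactorsThroughFiniteLevel ρ) (h' : GaloisFactorsThroughFiniteLevel ρ') :
    GaloisFactorsThroughFiniteLevel (ρ.prod ρ') := by
  obtain ⟨L, hL, hρ⟩ := h
  obtain ⟨L', hL', hρ'⟩ := h'
  haveI := hL
  haveI := hL'
  refine ⟨L ⊔ L', IntermediateField.finiteDimensional_sup L L', fun σ hσ => ?_⟩
  have h1 : ρ σ = 1 := hρ σ (fun x hx => hσ x ((le_sup_left : L ≤ L ⊔ L') hx))
  have h2 : ρ' σ = 1 := hρ' σ (fun x hx => hσ x ((le_sup_right : L' ≤ L ⊔ L') hx))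
  rw [MonoidHom.prod_apply, h1, h2]
  rfl

/-- Every `τ` has the same image under two homomorphisms of finite level as some Frobenius
element outside `S`. -/
theorem exists_frob_same_gen (hCS : Stmt_ChebSet) {M M' : Type} [Group M] [Group M']
    (ρ : Γℚ →* M) (ρ' : Γℚ →* M')
    (hfl : GaloisFactorsThroughFiniteLevel ρ) (hfl' : GaloisFactorsThroughFiniteLevel ρ')
    (S : Finset ℕ) (τ : Γℚ) :
    ∃ (p : ℕ) (A : ValuationSubring (AlgebraicClosure ℚ)) (σ : Γℚ), p.Prime ∧ p ∉ S ∧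
      A.LiesOverPrime p ∧ A.IsFrobeniusAt σ p ∧ ρ σ = ρ τ ∧ ρ' σ = ρ' τ := by
  set r₀ : Γℚ →* M × M' := ρ.prod ρ' with hr₀
  have hfl₀ : GaloisFactorsThroughFiniteLevel r₀ := finiteLevel_prod' ρ ρ' hfl hfl'
  haveI : Finite r₀.range := Fermat.Agent.S48.H55.finite_range_of_finiteLevel r₀ hfl₀
  set r : Γℚ →* r₀.range := r₀.rangeRestrict with hr
  have hrs : Function.Surjective r := r₀.rangeRestrict_surjective
  have hrfl : GaloisFactorsThroughFiniteLevel r := by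
    refine finiteLevel_of_imp r₀ r (fun σ hσ => ?_) hfl₀
    apply Subtype.ext
    exact hσ
  obtain ⟨p, hpS, hpr, A, σ, hA, hσ, hrσ⟩ := exists_frobPrime hCS r hrfl hrs S (r τ)
  have h1 : r₀ σ = r₀ τ := congrArg Subtype.val hrσ
  rw [hr₀, MonoidHom.prod_apply, MonoidHom.prod_apply, Prod.mk.injEq] at h1
  exact ⟨p, A, σ, hpr, hpS, hA, hσ, h1.1, h1.2⟩

/-- The coefficient of a monic quadratic relation of an invertible matrix is unique. -/
lemma quad_coeff_unique {k : Type} [Field k] {r : ℕ} (hr : 0 < r) (g : GL (Fin r) k)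
    {x y c : k}
    (hx : (g : Matrix (Fin r) (Fin r) k) * (g : Matrix (Fin r) (Fin r) k) -
      x • (g : Matrix (Fin r) (Fin r) k) + c • (1 : Matrix (Fin r) (Fin r) k) = 0)
    (hy : (g : Matrix (Fin r) (Fin r) k) * (g : Matrix (Fin r) (Fin r) k) -
      y • (g : Matrix (Fin r) (Fin r) k) + c • (1 : Matrix (Fin r) (Fin r) k) = 0) : x = y := by
  have h1 : (x - y) • (g : Matrix (Fin r) (Fin r) k) = 0 := by
    have h0 : (x - y) • (g : Matrix (Fin r) (Fin r) k) =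
        ((g : Matrix (Fin r) (Fin r) k) * (g : Matrix (Fin r) (Fin r) k) -
          y • (g : Matrix (Fin r) (Fin r) k) + c • (1 : Matrix (Fin r) (Fin r) k)) -
        ((g : Matrix (Fin r) (Fin r) k) * (g : Matrix (Fin r) (Fin r) k) -
          x • (g : Matrix (Fin r) (Fin r) k) + c • (1 : Matrix (Fin r) (Fin r) k)) := by
      rw [sub_smul]
      abel
    rw [h0, hx, hy, sub_zero]
  by_contra hne
  have hxy : x - y ≠ 0 := sub_ne_zero.mpr hne
  have h2 : (g : Matrix (Fin r) (Fin r) k) = 0 := by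
    have := congrArg (fun m => (x - y)⁻¹ • m) h1
    simpa [smul_smul, inv_mul_cancel₀ hxy] using this
  have h3 : ((g⁻¹ * g : GL (Fin r) k) : Matrix (Fin r) (Fin r) k) = 0 := by
    rw [Units.val_mul, h2, mul_zero]
  rw [inv_mul_cancel, Units.val_one] at h3
  have h4 := congrFun (congrFun h3 ⟨0, hr⟩) ⟨0, hr⟩
  simp at h4

theorem resRep_of (hE : Stmt_EisLift) (hT : Stmt_TatePieceH) (hS : Stmt_SmallPieceL)
    (hD : Stmt_DirCharL) (hCS : Stmt_ChebSet) : Stmt_ResRep := by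
  intro N _ ε f hf
  obtain ⟨ℓ₀, hℓ₀⟩ := hE N ε f hf
  refine ⟨max ℓ₀ 3, fun ℓ hℓ hge k _ _ _ φ => ?_⟩
  have hNℓ0 : N * ℓ ≠ 0 := Nat.mul_ne_zero (NeZero.ne N) hℓ.ne_zero
  haveI : NeZero (N * ℓ) := ⟨hNℓ0⟩
  have hℓ3 : 3 ≤ ℓ := le_trans (le_max_right _ _) hge
  obtain ⟨χ, G, b, hG, hcong⟩ := hℓ₀ ℓ hℓ (le_trans (le_max_left _ _) hge) k φ
  obtain ⟨r, ρ, hr, hfl, hρ⟩ := hT (N * ℓ) χ G b hG ℓ hℓ k φ
  obtain ⟨θ, hθfl, hθ⟩ := hD N ε k φ
  have h2 : (2 : k) ≠ 0 := by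
    intro h
    have h' : ((2 : ℕ) : k) = 0 := by exact_mod_cast h
    have hd := (CharP.cast_eq_zero_iff k ℓ 2).mp h'
    have := Nat.le_of_dvd (by norm_num) hd
    omega
  -- the quadratic relation at Frobenius elements
  have hfrob : ∀ p : ℕ, p.Prime → ¬ p ∣ N * ℓ →
      ∀ A : ValuationSubring (AlgebraicClosure ℚ), A.LiesOverPrime p →
        ∀ σ : Γℚ, A.IsFrobeniusAt σ p →
          ∃ x : k, (∀ a : integralClosure ℤ ℂ, (a : ℂ) = ModularFormClass.qCoeff f p → x = φ a) ∧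
            (∀ e : integralClosure ℤ ℂ, (e : ℂ) = ε (p : ZMod N) → ((θ σ : kˣ) : k) = φ e) ∧
            ((ρ σ : GL (Fin r) k) : Matrix (Fin r) (Fin r) k) *
                ((ρ σ : GL (Fin r) k) : Matrix (Fin r) (Fin r) k) -
              x • ((ρ σ : GL (Fin r) k) : Matrix (Fin r) (Fin r) k) +
              ((θ σ : kˣ) : k) • (1 : Matrix (Fin r) (Fin r) k) = 0 := by
    intro p hp hpNℓ A hA σ hσ
    have hpN : ¬ p ∣ N := fun h => hpNℓ (Dvd.dvd.mul_right h ℓ)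
    have hpNℓℓ : ¬ p ∣ N * ℓ * ℓ := by
      intro hd
      rcases (Nat.Prime.dvd_mul hp).mp hd with h | h
      · exact hpNℓ h
      · exact hpNℓ (Dvd.dvd.mul_left h N)
    obtain ⟨β, c, hβ, hc, hβa, hce⟩ := hcong p hp hpNℓ
    have hrel := (hρ p hp hpNℓℓ A hA).2 σ hσ β c hβ hc
    have hθe := (hθ p hp hpN A hA).2 σ hσ
    have hei := isIntegral_dirichlet N ε (p : ZMod N)
    have hθc : ((θ σ : kˣ) : k) = φ c := by
      rw [hθe ⟨_, hei⟩ rfl, hce ⟨_, hei⟩ rfl]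
    refine ⟨φ β, fun a ha => hβa a ha, hθe, ?_⟩
    rw [hθc]
    exact hrel
  -- every element satisfies a quadratic relation
  have hquad : ∀ g : Γℚ, ∃ x : k,
      ((ρ g : GL (Fin r) k) : Matrix (Fin r) (Fin r) k) *
          ((ρ g : GL (Fin r) k) : Matrix (Fin r) (Fin r) k) -
        x • ((ρ g : GL (Fin r) k) : Matrix (Fin r) (Fin r) k) +
        ((θ g : kˣ) : k) • (1 : Matrix (Fin r) (Fin r) k) = 0 := by
    intro g
    obtain ⟨p, A, σ, hp, hpS, hA, hσ, h1, h2'⟩ :=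
      exists_frob_same_gen hCS ρ θ hfl hθfl (N * ℓ).primeFactors g
    have hpNℓ : ¬ p ∣ N * ℓ := fun hd => hpS (Nat.mem_primeFactors.mpr ⟨hp, hd, hNℓ0⟩)
    obtain ⟨x, -, -, hx⟩ := hfrob p hp hpNℓ A hA σ hσ
    refine ⟨x, ?_⟩
    rw [← h1, ← h2']
    exact hx
  choose a ha using hquad
  obtain ⟨ρ₂, hker, htd⟩ := hS k h2 Γℚ r hr ρ θ a ha
  refine ⟨ρ₂, ?_, fun p hp hpNℓ a' e' ha' he' A hA => ⟨fun σ hσ => ?_, fun σ hσ => ?_⟩⟩
  · -- finite level
    have hfl₀ := finiteLevel_prod' ρ θ hfl hθfl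
    refine finiteLevel_of_imp (ρ.prod θ) ρ₂ (fun σ hσ => ?_) hfl₀
    rw [MonoidHom.prod_apply] at hσ
    have h1 : ρ σ = 1 := congrArg Prod.fst hσ
    have h2' : θ σ = 1 := congrArg Prod.snd hσ
    exact hker σ h1 h2'
  · have hpN : ¬ p ∣ N := fun h => hpNℓ (Dvd.dvd.mul_right h ℓ)
    have hpNℓℓ : ¬ p ∣ N * ℓ * ℓ := by
      intro hd
      rcases (Nat.Prime.dvd_mul hp).mp hd with h | h
      · exact hpNℓ h
      · exact hpNℓ (Dvd.dvd.mul_left h N)
    exact hker σ ((hρ p hp hpNℓℓ A hA).1 σ hσ) ((hθ p hp hpN A hA).1 σ hσ)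
  · obtain ⟨x, hxa, hθe, hx⟩ := hfrob p hp hpNℓ A hA σ hσ
    have hax : a σ = x := quad_coeff_unique hr (ρ σ) (ha σ) hx
    obtain ⟨h1, h2'⟩ := htd σ
    exact ⟨by rw [h1, hax, hxa a' ha'], by rw [h2', hθe e' he']⟩

end Fermat.Agent.S48.B.H43
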