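import Fermat.Agent.S48.B.H43_Wiring
import Fermat.Agent.S48.B1.H55_Asm5
import Fermat.Agent.S48.B2.Defs

/-!
# S48, mountain B: wiring, second form (helper43)

`resRep_of' : B1.H55.Stmt_EisLiftNeb → B2.Stmt_TatePieceH' → Stmt_SmallPieceL → Stmt_DirCharL →
  Stmt_ChebSet → Stmt_ResRep`: the same assembly as `resRep_of`, but the Eichler–Shimura piece is
only asked for eigenvectors WITH nebentypus, at levels `M ≥ 2` and primes `ℓ ≥ 5`, `ℓ² ∤ M`.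
-/

set_option autoImplicit false
set_option linter.unusedSectionVars false
set_option linter.style.haveILetI false

open CongruenceSubgroup
open scoped MatrixGroups

namespace Fermat.Agent.S48.B.H43

open Fermat.Agent.S48.Asm Fermat.Agent.S48.Asm.H43

local notation "Γℚ" => (AlgebraicClosure ℚ ≃ₐ[ℚ] AlgebraicClosure ℚ)

theorem resRep_of' (hE : Fermat.Agent.S48.B1.H55.Stmt_EisLiftNeb)
    (hT : Fermat.Agent.S48.B2.Stmt_TatePieceH') (hS : Stmt_SmallPieceL)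
    (hD : Stmt_DirCharL) (hCS : Stmt_ChebSet) : Stmt_ResRep := by
  intro N _ ε f hf
  obtain ⟨ℓ₀, hℓ₀⟩ := hE N ε f hf
  refine ⟨max ℓ₀ (max 5 (N + 1)), fun ℓ hℓ hge k _ _ _ φ => ?_⟩
  have hNℓ0 : N * ℓ ≠ 0 := Nat.mul_ne_zero (NeZero.ne N) hℓ.ne_zero
  haveI : NeZero (N * ℓ) := ⟨hNℓ0⟩
  have hℓ5 : 5 ≤ ℓ := le_trans (le_trans (le_max_left _ _) (le_max_right _ _)) hge
  have hℓN : N + 1 ≤ ℓ := le_trans (le_trans (le_max_right _ _) (le_max_right _ _)) hge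
  have hsq : ¬ ℓ ^ 2 ∣ N * ℓ := by
    intro hd
    rw [pow_two] at hd
    have h1 : ℓ ∣ N := (Nat.mul_dvd_mul_iff_right hℓ.pos).mp (by rwa [Nat.mul_comm N ℓ] at hd ⊢)
    have h2 := Nat.le_of_dvd (Nat.pos_of_ne_zero (NeZero.ne N)) h1
    omega
  have htot : ¬ ℓ ∣ Nat.totient (N * ℓ) := by
    have hNpos : 0 < N := Nat.pos_of_ne_zero (NeZero.ne N)
    have hcop : Nat.Coprime N ℓ := by
      rw [Nat.coprime_comm]
      exact (Nat.Prime.coprime_iff_not_dvd hℓ).2 fun h1 =>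
        absurd (Nat.le_of_dvd hNpos h1) (by omega)
    rw [Nat.totient_mul hcop, Nat.totient_prime hℓ]
    intro hd
    rcases (Nat.Prime.dvd_mul hℓ).1 hd with h1 | h1
    · have h2 := Nat.le_of_dvd (Nat.totient_pos.2 hNpos) h1
      have h3 := Nat.totient_le N
      omega
    · have h2 := Nat.le_of_dvd (by omega) h1
      omega
  have hM2 : 2 ≤ N * ℓ :=
    le_trans (by omega : 2 ≤ ℓ) (Nat.le_mul_of_pos_left ℓ (Nat.pos_of_ne_zero (NeZero.ne N)))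
  obtain ⟨χ, G, b, hG, hNeb, hcong⟩ := hℓ₀ ℓ hℓ (le_trans (le_max_left _ _) hge) k φ
  obtain ⟨r, ρ, hr, hfl, hρ⟩ := hT (N * ℓ) χ G b hM2 hG hNeb ℓ hℓ hℓ5 hsq htot k φ
  obtain ⟨θ, hθfl, hθ⟩ := hD N ε k φ
  have h2 : (2 : k) ≠ 0 := by
    intro h
    have h' : ((2 : ℕ) : k) = 0 := by exact_mod_cast h
    have hd := (CharP.cast_eq_zero_iff k ℓ 2).mp h'
    have := Nat.le_of_dvd (by norm_num) hd
    omega
  -- the quadratic relation at Frobenius elements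
  have hfrob : ∀ p : ℕ, p.Prime → ¬ p ∣ N * ℓ →
      ∀ A : ValuationSubring (AlgebraicClosure ℚ), A.LiesOverPrime p →
        ∀ σ : Γℚ, A.IsFrobeniusAt σ p →
          ∃ x : k, (∀ a : integralClosure ℤ ℂ, (a : ℂ) = ModularFormClass.qCoeff f p → x = φ a) ∧
            (∀ e : integralClosure ℤ ℂ, (e : ℂ) = ε (p : ZMod N) → ((θ σ : kˣ) : k) = φ e) ∧
            ((ρ σ : GL (Fin r) k) : Matrix (Fin r) (Fin r) k) *
                ((ρ σ : GL (Fin r) k) : Matrix (Fin r) (Fin r) k) -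
              x • ((ρ σ : GL (Fin r) k) : Matrix (Fin r) (Fin r) k) +
              ((θ σ : kˣ) : k) • (1 : Matrix (Fin r) (Fin r) k) = 0 := by
    intro p hp hpNℓ A hA σ hσ
    have hpN : ¬ p ∣ N := fun h => hpNℓ (Dvd.dvd.mul_right h ℓ)
    have hpNℓℓ : ¬ p ∣ N * ℓ * ℓ := by
      intro hd
      rcases (Nat.Prime.dvd_mul hp).mp hd with h | h
      · exact hpNℓ h
      · exact hpNℓ (Dvd.dvd.mul_left h N)
    obtain ⟨β, c, hβ, hc, hβa, hce⟩ := hcong p hp hpNℓ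
    have hrel := (hρ p hp hpNℓℓ A hA).2 σ hσ β c hβ hc
    have hθe := (hθ p hp hpN A hA).2 σ hσ
    have hei := isIntegral_dirichlet N ε (p : ZMod N)
    have hθc : ((θ σ : kˣ) : k) = φ c := by
      rw [hθe ⟨_, hei⟩ rfl, hce ⟨_, hei⟩ rfl]
    refine ⟨φ β, fun a ha => hβa a ha, hθe, ?_⟩
    rw [hθc]
    exact hrel
  -- every element satisfies a quadratic relation
  have hquad : ∀ g : Γℚ, ∃ x : k,
      ((ρ g : GL (Fin r) k) : Matrix (Fin r) (Fin r) k) *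
          ((ρ g : GL (Fin r) k) : Matrix (Fin r) (Fin r) k) -
        x • ((ρ g : GL (Fin r) k) : Matrix (Fin r) (Fin r) k) +
        ((θ g : kˣ) : k) • (1 : Matrix (Fin r) (Fin r) k) = 0 := by
    intro g
    obtain ⟨p, A, σ, hp, hpS, hA, hσ, h1, h2'⟩ :=
      exists_frob_same_gen hCS ρ θ hfl hθfl (N * ℓ).primeFactors g
    have hpNℓ : ¬ p ∣ N * ℓ := fun hd => hpS (Nat.mem_primeFactors.mpr ⟨hp, hd, hNℓ0⟩)
    obtain ⟨x, -, -, hx⟩ := hfrob p hp hpNℓ A hA σ hσ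
    refine ⟨x, ?_⟩
    rw [← h1, ← h2']
    exact hx
  choose a ha using hquad
  obtain ⟨ρ₂, hker, htd⟩ := hS k h2 Γℚ r hr ρ θ a ha
  refine ⟨ρ₂, ?_, fun p hp hpNℓ a' e' ha' he' A hA => ⟨fun σ hσ => ?_, fun σ hσ => ?_⟩⟩
  · -- finite level
    have hfl₀ := finiteLevel_prod' ρ θ hfl hθfl
    refine finiteLevel_of_imp (ρ.prod θ) ρ₂ (fun σ hσ => ?_) hfl₀
    rw [MonoidHom.prod_apply] at hσ
    have h1 : ρ σ = 1 := congrArg Prod.fst hσ
    have h2' : θ σ = 1 := congrArg Prod.snd hσ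
    exact hker σ h1 h2'
  · have hpN : ¬ p ∣ N := fun h => hpNℓ (Dvd.dvd.mul_right h ℓ)
    have hpNℓℓ : ¬ p ∣ N * ℓ * ℓ := by
      intro hd
      rcases (Nat.Prime.dvd_mul hp).mp hd with h | h
      · exact hpNℓ h
      · exact hpNℓ (Dvd.dvd.mul_left h N)
    exact hker σ ((hρ p hp hpNℓℓ A hA).1 σ hσ) ((hθ p hp hpN A hA).1 σ hσ)
  · obtain ⟨x, hxa, hθe, hx⟩ := hfrob p hp hpNℓ A hA σ hσ
    have hax : a σ = x := quad_coeff_unique hr (ρ σ) (ha σ) hx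
    obtain ⟨h1, h2'⟩ := htd σ
    exact ⟨by rw [h1, hax, hxa a' ha'], by rw [h2', hθe e' he']⟩

end Fermat.Agent.S48.B.H43
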