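import Mathlib

/-!
# S48, mountain B, leaf B3 (helper46): the linear algebra core

`k` a field, `V` a `k`-vector space, `Γ` a group acting on `V` by `Φ`, `θ : Γ →* kˣ` a character
and `a : Γ → k` such that every `g` satisfies `g² - a(g) g + θ(g) = 0` on `V`.

* `QuadRel.key`: if `w` is an eigenvector of `g` with eigenvalue `μ` then
  `g (h w) = (a g - μ) • h w + (a (g h) - (a g - μ) a h) • w` for every `h`.
* `exists_minimal_inv`: a minimal nonzero invariant subspace.
* `QuadRel.sub_mem_span`: on a minimal invariant subspace `W`, `(g - (a g - μ)) W ⊆ k w`.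
* `QuadRel.finrank_le_two`: a minimal invariant subspace has dimension at most two
  (`k` algebraically closed).
-/

set_option autoImplicit false

namespace Fermat.Agent.S48.B.H46

open Module

variable {k : Type*} [Field k] {V : Type*} [AddCommGroup V] [Module k V]
  {Γ : Type*} [Group Γ]

/-- The quadratic relation `g² - a(g) g + θ(g) = 0`. -/
def QuadRel (Φ : Γ →* Module.End k V) (θ : Γ →* kˣ) (a : Γ → k) : Prop :=
  ∀ (g : Γ) (v : V), Φ g (Φ g v) = a g • Φ g v - ((θ g : kˣ) : k) • v

/-- `W` is invariant. -/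
def IsInv (Φ : Γ →* Module.End k V) (W : Submodule k V) : Prop :=
  ∀ (g : Γ), ∀ w ∈ W, Φ g w ∈ W

variable {Φ : Γ →* Module.End k V} {θ : Γ →* kˣ} {a : Γ → k}

theorem apply_inv_apply (Φ : Γ →* Module.End k V) (g : Γ) (v : V) : Φ g⁻¹ (Φ g v) = v := by
  have h : Φ g⁻¹ * Φ g = 1 := by rw [← map_mul, inv_mul_cancel, map_one]
  have := congrArg (fun f : Module.End k V => f v) h
  simpa using this

theorem apply_injective (Φ : Γ →* Module.End k V) (g : Γ) : Function.Injective (Φ g) := by
  intro v w h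
  rw [← apply_inv_apply Φ g v, ← apply_inv_apply Φ g w, h]

theorem apply_mul (Φ : Γ →* Module.End k V) (g h : Γ) (v : V) : Φ (g * h) v = Φ g (Φ h v) := by
  rw [map_mul]
  rfl

/-- The eigenvalues are roots of the quadratic. -/
theorem QuadRel.eigen (H : QuadRel Φ θ a) {g : Γ} {w : V} {μ : k} (hw0 : w ≠ 0)
    (hw : Φ g w = μ • w) : μ * μ - a g * μ + ((θ g : kˣ) : k) = 0 := by
  have h1 := H g w
  rw [hw, map_smul, hw] at h1
  have h2 : (μ * μ - a g * μ + ((θ g : kˣ) : k)) • w = 0 := by
    rw [add_smul, sub_smul, mul_smul, mul_smul, h1]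
    abel
  exact (smul_eq_zero.mp h2).resolve_right hw0

/-- **The key identity.** -/
theorem QuadRel.key (H : QuadRel Φ θ a) (g h : Γ) {w : V} {μ : k} (hw : Φ g w = μ • w) :
    Φ g (Φ h w) = (a g - μ) • Φ h w + (a (g * h) - (a g - μ) * a h) • w := by
  by_cases hw0 : w = 0
  · subst hw0
    simp
  have hμ := H.eigen hw0 hw
  apply apply_injective Φ (g * h)
  -- both sides after applying `g h`
  have e1 : Φ (g * h) (Φ g (Φ h w)) = a (g * h) • Φ g (Φ h w)
      - (((θ g : kˣ) : k) * ((θ h : kˣ) : k)) • w := by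
    have := H (g * h) w
    rw [apply_mul Φ g h w, apply_mul Φ g h (Φ g (Φ h w))] at this
    rw [apply_mul Φ g h (Φ g (Φ h w)), this, map_mul, Units.val_mul]
  have e2 : Φ g (Φ h (Φ h w)) = a h • Φ g (Φ h w) - (((θ h : kˣ) : k) * μ) • w := by
    rw [H h w, map_sub, map_smul, map_smul, hw, smul_smul]
  rw [e1, map_add, map_smul, map_smul, apply_mul Φ g h (Φ h w), e2, apply_mul Φ g h w]
  have e3 : ((θ g : kˣ) : k) = a g * μ - μ * μ := by linear_combination hμ
  rw [e3]
  module


/-- Irreducibility. -/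
def IsIrr (Φ : Γ →* Module.End k V) : Prop :=
  ∀ U : Submodule k V, IsInv Φ U → U = ⊥ ∨ U = ⊤

theorem span_orbit_eq_top (hirr : IsIrr Φ) {x : V} (hx : x ≠ 0) :
    Submodule.span k (Set.range fun h : Γ => Φ h x) = ⊤ := by
  have hinv : IsInv Φ (Submodule.span k (Set.range fun h : Γ => Φ h x)) := by
    intro g w hw
    induction hw using Submodule.span_induction with
    | mem y hy =>
      obtain ⟨h, rfl⟩ := hy
      apply Submodule.subset_span
      exact ⟨g * h, apply_mul Φ g h x⟩
    | zero => simp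
    | add y z _ _ hy hz => rw [map_add]; exact Submodule.add_mem _ hy hz
    | smul c y _ hy => rw [map_smul]; exact Submodule.smul_mem _ c hy
  rcases hirr _ hinv with h | h
  · exfalso
    have hmem : x ∈ Submodule.span k (Set.range fun h : Γ => Φ h x) :=
      Submodule.subset_span ⟨1, by simp⟩
    rw [h] at hmem
    exact hx (by simpa using hmem)
  · exact h

theorem QuadRel.sub_mem_span (H : QuadRel Φ θ a) (hirr : IsIrr Φ) {g : Γ} {x : V} {μ : k}
    (hx : x ≠ 0) (hgx : Φ g x = μ • x) (v : V) :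
    Φ g v - (a g - μ) • v ∈ Submodule.span k {x} := by
  have hv : v ∈ Submodule.span k (Set.range fun h : Γ => Φ h x) := by
    rw [span_orbit_eq_top hirr hx]; trivial
  induction hv using Submodule.span_induction with
  | mem y hy =>
    obtain ⟨h, rfl⟩ := hy
    rw [H.key g h hgx]
    have e : (a g - μ) • Φ h x + (a (g * h) - (a g - μ) * a h) • x - (a g - μ) • Φ h x
        = (a (g * h) - (a g - μ) * a h) • x := by abel
    rw [e]
    exact Submodule.smul_mem _ _ (Submodule.mem_span_singleton_self x)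
  | zero => simp
  | add y z _ _ hy hz =>
    have e : Φ g (y + z) - (a g - μ) • (y + z)
        = (Φ g y - (a g - μ) • y) + (Φ g z - (a g - μ) • z) := by
      rw [map_add, smul_add]; abel
    rw [e]; exact Submodule.add_mem _ hy hz
  | smul c y _ hy =>
    have e : Φ g (c • y) - (a g - μ) • (c • y) = c • (Φ g y - (a g - μ) • y) := by
      rw [map_smul, smul_sub, smul_comm]
    rw [e]; exact Submodule.smul_mem _ c hy

/-- An irreducible representation satisfying the quadratic relations, with a non-scalar element,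
has dimension at most two. -/
theorem QuadRel.finrank_le_two [IsAlgClosed k] [FiniteDimensional k V] [Nontrivial V]
    (H : QuadRel Φ θ a) (hirr : IsIrr Φ) (g : Γ) (hg : ∀ c : k, Φ g ≠ c • (1 : Module.End k V)) :
    finrank k V ≤ 2 := by
  obtain ⟨l, hl⟩ := Module.End.exists_eigenvalue (Φ g)
  obtain ⟨w, hw⟩ := hl.exists_hasEigenvector
  have hw0 : w ≠ 0 := hw.2
  have hgw : Φ g w = l • w := hw.apply_eq_smul
  have hrel := H.eigen hw0 hgw
  -- a vector not killed by `g - l`
  obtain ⟨x₀, hx₀⟩ : ∃ x₀ : V, Φ g x₀ - l • x₀ ≠ 0 := by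
    by_contra hcon
    push_neg at hcon
    apply hg l
    ext v
    have := hcon v
    simpa [sub_eq_zero] using this
  set y : V := Φ g x₀ - l • x₀ with hy
  have hgy : Φ g y = (a g - l) • y := by
    rw [hy, map_sub, map_smul, H g x₀]
    have e3 : ((θ g : kˣ) : k) = a g * l - l * l := by linear_combination hrel
    rw [e3]
    module
  -- the two rank one statements
  have hT : ∀ v, Φ g v - (a g - l) • v ∈ Submodule.span k {w} :=
    fun v => H.sub_mem_span hirr hw0 hgw v
  have hS : ∀ {x : V}, x ≠ 0 → Φ g x = (a g - l) • x → ∀ v, Φ g v - l • v ∈ Submodule.span k {x} := by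
    intro x hx hgx v
    have := H.sub_mem_span hirr hx hgx v
    rwa [sub_sub_cancel] at this
  set T : Module.End k V := Φ g - (a g - l) • (1 : Module.End k V) with hTdef
  have hTv : ∀ v, T v = Φ g v - (a g - l) • v := fun v => by
    simp [hTdef]
  have hrange : LinearMap.range T ≤ Submodule.span k {w} := by
    rintro _ ⟨v, rfl⟩
    rw [hTv]; exact hT v
  have hker : LinearMap.ker T ≤ Submodule.span k {y} := by
    intro x hx
    rw [LinearMap.mem_ker, hTv, sub_eq_zero] at hx
    by_cases hx0 : x = 0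
    · rw [hx0]; exact Submodule.zero_mem _
    have hmem : y ∈ Submodule.span k {x} := hS hx0 hx x₀
    obtain ⟨c, hc⟩ := Submodule.mem_span_singleton.mp hmem
    have hc0 : c ≠ 0 := by
      rintro rfl
      rw [zero_smul] at hc
      exact hx₀ hc.symm
    rw [Submodule.mem_span_singleton]
    refine ⟨c⁻¹, ?_⟩
    rw [← hc, smul_smul, inv_mul_cancel₀ hc0, one_smul]
  have h1 : finrank k (LinearMap.range T) ≤ 1 := by
    calc finrank k (LinearMap.range T) ≤ finrank k (Submodule.span k {w}) :=
          Submodule.finrank_mono hrange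
      _ = 1 := finrank_span_singleton hw0
  have h2 : finrank k (LinearMap.ker T) ≤ 1 := by
    calc finrank k (LinearMap.ker T) ≤ finrank k (Submodule.span k {y}) :=
          Submodule.finrank_mono hker
      _ = 1 := finrank_span_singleton hx₀
  have := LinearMap.finrank_range_add_finrank_ker T
  omega


/-! ### Minimal invariant subspaces and the restricted representation -/

theorem exists_minimal_inv [FiniteDimensional k V] [Nontrivial V] (Φ : Γ →* Module.End k V) :
    ∃ W : Submodule k V, IsInv Φ W ∧ W ≠ ⊥ ∧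
      ∀ U : Submodule k V, U ≤ W → IsInv Φ U → U = ⊥ ∨ U = W := by
  have hne : ({W : Submodule k V | IsInv Φ W ∧ W ≠ ⊥}).Nonempty :=
    ⟨⊤, fun _ _ _ => Submodule.mem_top, top_ne_bot⟩
  obtain ⟨W, hW, hmin⟩ := IsArtinian.set_has_minimal _ hne
  refine ⟨W, hW.1, hW.2, fun U hUW hU => ?_⟩
  by_cases hU0 : U = ⊥
  · exact Or.inl hU0
  · exact Or.inr (eq_of_le_of_not_lt hUW (hmin U ⟨hU, hU0⟩))

/-- The restriction of `Φ` to an invariant subspace. -/
def resRep (Φ : Γ →* Module.End k V) (W : Submodule k V) (hW : IsInv Φ W) :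
    Γ →* Module.End k W where
  toFun g := (Φ g).restrict (hW g)
  map_one' := by
    ext w
    simp
  map_mul' g h := by
    ext w
    simp [apply_mul]

@[simp] theorem resRep_apply_coe (Φ : Γ →* Module.End k V) (W : Submodule k V) (hW : IsInv Φ W)
    (g : Γ) (w : W) : ((resRep Φ W hW g w : W) : V) = Φ g (w : V) := rfl

theorem QuadRel.resRep (H : QuadRel Φ θ a) (W : Submodule k V) (hW : IsInv Φ W) :
    QuadRel (resRep Φ W hW) θ a := by
  intro g v
  apply Subtype.ext
  simp only [resRep_apply_coe, Submodule.coe_sub, Submodule.coe_smul]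
  exact H g v

theorem isIrr_resRep (Φ : Γ →* Module.End k V) (W : Submodule k V) (hW : IsInv Φ W)
    (hmin : ∀ U : Submodule k V, U ≤ W → IsInv Φ U → U = ⊥ ∨ U = W) :
    IsIrr (resRep Φ W hW) := by
  intro U hU
  have hinv : IsInv Φ (U.map W.subtype) := by
    rintro g _ ⟨u, hu, rfl⟩
    exact ⟨resRep Φ W hW g u, hU g u hu, rfl⟩
  rcases hmin _ (Submodule.map_subtype_le W U) hinv with h | h
  · left
    rw [eq_bot_iff]
    intro u hu
    have hmem : (u : V) ∈ U.map W.subtype := ⟨u, hu, rfl⟩
    rw [h] at hmem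
    rw [Submodule.mem_bot] at hmem ⊢
    exact Subtype.ext hmem
  · right
    rw [eq_top_iff]
    intro u _
    have hmem : (u : V) ∈ U.map W.subtype := by rw [h]; exact u.2
    obtain ⟨u₀, hu₀, he⟩ := hmem
    have : u₀ = u := Subtype.ext he
    rwa [← this]

/-! ### Two by two matrices -/

theorem cayley_hamilton_two (M : Matrix (Fin 2) (Fin 2) k) :
    M * M - M.trace • M + M.det • (1 : Matrix (Fin 2) (Fin 2) k) = 0 := by
  ext i j
  fin_cases i <;> fin_cases j <;>
    simp [Matrix.mul_apply, Fin.sum_univ_two, Matrix.trace_fin_two, Matrix.det_fin_two] <;> ring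

theorem trace_det_of_quad {M : Matrix (Fin 2) (Fin 2) k} {a θ : k}
    (h : M * M - a • M + θ • (1 : Matrix (Fin 2) (Fin 2) k) = 0)
    (hM : ∀ c : k, M ≠ c • (1 : Matrix (Fin 2) (Fin 2) k)) : M.trace = a ∧ M.det = θ := by
  have hch := cayley_hamilton_two M
  have e : (M.trace - a) • M = (M.det - θ) • (1 : Matrix (Fin 2) (Fin 2) k) := by
    have : (M.trace - a) • M - (M.det - θ) • (1 : Matrix (Fin 2) (Fin 2) k)
        = (M * M - a • M + θ • (1 : Matrix (Fin 2) (Fin 2) k))
          - (M * M - M.trace • M + M.det • (1 : Matrix (Fin 2) (Fin 2) k)) := by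
      module
    rw [h, hch, sub_zero] at this
    exact sub_eq_zero.mp this
  have ht : M.trace = a := by
    by_contra hne
    have hne' : M.trace - a ≠ 0 := sub_ne_zero.mpr hne
    apply hM ((M.trace - a)⁻¹ * (M.det - θ))
    rw [mul_smul, ← e, smul_smul, inv_mul_cancel₀ hne', one_smul]
  refine ⟨ht, ?_⟩
  rw [ht, sub_self, zero_smul] at e
  have e00 := congrFun (congrFun e 0) 0
  simp only [Matrix.zero_apply, Matrix.smul_apply, Matrix.one_apply_eq, smul_eq_mul,
    mul_one] at e00
  exact (sub_eq_zero.mp e00.symm)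


/-! ### Case A: a common eigenvector -/

theorem exists_rep2_of_eigenvector (H : QuadRel Φ θ a) {w : V} (hw : w ≠ 0)
    (hev : ∀ g, ∃ c : k, Φ g w = c • w) :
    ∃ ρ₂ : Γ →* GL (Fin 2) k, (∀ g, Φ g = 1 → θ g = 1 → ρ₂ g = 1) ∧
      ∀ g, ((ρ₂ g : GL (Fin 2) k) : Matrix (Fin 2) (Fin 2) k).trace = a g ∧
        ((ρ₂ g : GL (Fin 2) k) : Matrix (Fin 2) (Fin 2) k).det = ((θ g : kˣ) : k) := by
  choose χ hχ using hev
  have hinj : Function.Injective (fun c : k => c • w) := smul_left_injective k hw
  have hχ1 : χ 1 = 1 := by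
    apply hinj
    show χ 1 • w = (1 : k) • w
    rw [← hχ 1, map_one, one_smul]
    rfl
  have hχmul : ∀ g h, χ (g * h) = χ g * χ h := by
    intro g h
    apply hinj
    show χ (g * h) • w = (χ g * χ h) • w
    rw [← hχ (g * h), apply_mul, hχ h, map_smul, hχ g, smul_smul, mul_comm]
  have hχ0 : ∀ g, χ g ≠ 0 := by
    intro g h0
    have h1 := hχ g
    rw [h0, zero_smul] at h1
    exact hw (apply_injective Φ g (by rw [h1, map_zero]))
  have hrel : ∀ g, χ g * χ g - a g * χ g + ((θ g : kˣ) : k) = 0 := fun g => H.eigen hw (hχ g)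
  let D : Γ →* Matrix (Fin 2) (Fin 2) k :=
    { toFun := fun g => Matrix.diagonal ![χ g, ((θ g : kˣ) : k) * (χ g)⁻¹]
      map_one' := by
        rw [hχ1, map_one]
        ext i j
        fin_cases i <;> fin_cases j <;> simp
      map_mul' := fun g h => by
        rw [Matrix.diagonal_mul_diagonal, hχmul, map_mul]
        congr 1
        ext i
        fin_cases i
        · simp
        · simp only [Units.val_mul, Fin.mk_one, Matrix.cons_val_one, Matrix.cons_val_zero]
          have := hχ0 g
          have := hχ0 h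
          field_simp }
  have hD : ∀ g, D g = Matrix.diagonal ![χ g, ((θ g : kˣ) : k) * (χ g)⁻¹] := fun _ => rfl
  refine ⟨D.toHomUnits, ?_, ?_⟩
  · intro g hg hθ
    apply Units.ext
    rw [MonoidHom.coe_toHomUnits, hD]
    have hχg : χ g = 1 := by
      apply hinj
      show χ g • w = (1 : k) • w
      rw [← hχ g, hg, one_smul]
      rfl
    rw [hχg, hθ]
    ext i j
    fin_cases i <;> fin_cases j <;> simp
  · intro g
    rw [MonoidHom.coe_toHomUnits, hD]
    have h0 := hχ0 g
    constructor
    · rw [Matrix.trace_diagonal, Fin.sum_univ_two]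
      simp only [Matrix.cons_val_zero, Matrix.cons_val_one]
      field_simp
      linear_combination hrel g
    · rw [Matrix.det_diagonal, Fin.prod_univ_two]
      simp only [Matrix.cons_val_zero, Matrix.cons_val_one]
      field_simp

/-! ### Case B: no common eigenvector, irreducible -/

theorem exists_rep2_of_irr [IsAlgClosed k] [FiniteDimensional k V] [Nontrivial V]
    (H : QuadRel Φ θ a) (hirr : IsIrr Φ)
    (hno : ¬ ∃ w : V, w ≠ 0 ∧ ∀ g, ∃ c : k, Φ g w = c • w) :
    ∃ ρ₂ : Γ →* GL (Fin 2) k, (∀ g, Φ g = 1 → ρ₂ g = 1) ∧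
      ∀ g, ((ρ₂ g : GL (Fin 2) k) : Matrix (Fin 2) (Fin 2) k).trace = a g ∧
        ((ρ₂ g : GL (Fin 2) k) : Matrix (Fin 2) (Fin 2) k).det = ((θ g : kˣ) : k) := by
  -- a non-scalar element
  obtain ⟨g₀, hg₀⟩ : ∃ g₀, ∀ c : k, Φ g₀ ≠ c • (1 : Module.End k V) := by
    by_contra hcon
    push_neg at hcon
    obtain ⟨w, hw⟩ := exists_ne (0 : V)
    refine hno ⟨w, hw, fun g => ?_⟩
    obtain ⟨c, hc⟩ := hcon g
    exact ⟨c, by rw [hc]; rfl⟩
  have hle := H.finrank_le_two hirr g₀ hg₀
  have hpos : 0 < finrank k V := Module.finrank_pos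
  have hne1 : finrank k V ≠ 1 := by
    intro h1
    obtain ⟨v, hv, hall⟩ := finrank_eq_one_iff'.mp h1
    refine hno ⟨v, hv, fun g => ?_⟩
    obtain ⟨c, hc⟩ := hall (Φ g v)
    exact ⟨c, hc.symm⟩
  have hfin : finrank k V = 2 := by omega
  let b : Basis (Fin 2) k V := Module.finBasisOfFinrankEq k V hfin
  let E : Module.End k V ≃ₐ[k] Matrix (Fin 2) (Fin 2) k := LinearMap.toMatrixAlgEquiv b
  let R : Γ →* Matrix (Fin 2) (Fin 2) k := (E : Module.End k V →* Matrix (Fin 2) (Fin 2) k).comp Φ
  have hR : ∀ g, R g = E (Φ g) := fun _ => rfl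
  have hrelE : ∀ g, Φ g * Φ g - a g • Φ g + ((θ g : kˣ) : k) • (1 : Module.End k V) = 0 := by
    intro g
    ext v
    have := H g v
    simp only [LinearMap.add_apply, LinearMap.sub_apply, Module.End.mul_apply,
      LinearMap.smul_apply, Module.End.one_apply, LinearMap.zero_apply]
    rw [this]
    abel
  have hrel : ∀ g, R g * R g - a g • R g
      + ((θ g : kˣ) : k) • (1 : Matrix (Fin 2) (Fin 2) k) = 0 := by
    intro g
    have := congrArg E (hrelE g)
    simpa [hR] using this
  have hns : ∀ c : k, R g₀ ≠ c • (1 : Matrix (Fin 2) (Fin 2) k) := by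
    intro c hc
    apply hg₀ c
    apply E.injective
    rw [← hR, hc, map_smul, map_one]
  have hθ0 : ∀ g, ((θ g : kˣ) : k) ≠ 0 := fun g => (θ g).ne_zero
  have htd₀ := trace_det_of_quad (hrel g₀) hns
  refine ⟨R.toHomUnits, ?_, ?_⟩
  · intro g hg
    apply Units.ext
    rw [MonoidHom.coe_toHomUnits, hR, hg, map_one]
    rfl
  · intro g
    rw [MonoidHom.coe_toHomUnits]
    by_cases hs : ∃ c : k, R g = c • (1 : Matrix (Fin 2) (Fin 2) k)
    · obtain ⟨c, hc⟩ := hs
      have hc0 : c ≠ 0 := by
        rintro rfl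
        rw [zero_smul] at hc
        have h1 : R (g * g⁻¹) = 1 := by rw [mul_inv_cancel, map_one]
        rw [map_mul, hc, zero_mul] at h1
        exact zero_ne_one h1
      have hgg : R (g * g₀) = c • R g₀ := by
        rw [map_mul, hc, Matrix.smul_mul, one_mul]
      have hns' : ∀ d : k, R (g * g₀) ≠ d • (1 : Matrix (Fin 2) (Fin 2) k) := by
        intro d hd
        apply hns (c⁻¹ * d)
        rw [mul_smul, ← hd, hgg, smul_smul, inv_mul_cancel₀ hc0, one_smul]
      have htd := trace_det_of_quad (hrel (g * g₀)) hns'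
      have hdet : ((θ g : kˣ) : k) = c * c := by
        have h2 := htd.2
        rw [hgg, Matrix.det_smul, Fintype.card_fin, htd₀.2, map_mul, Units.val_mul] at h2
        have h3 : (c * c - ((θ g : kˣ) : k)) * ((θ g₀ : kˣ) : k) = 0 := by
          linear_combination h2
        rcases mul_eq_zero.mp h3 with h4 | h4
        · exact (sub_eq_zero.mp h4).symm
        · exact absurd h4 (hθ0 g₀)
      have hq : c * c - a g * c + ((θ g : kˣ) : k) = 0 := by
        have h2 := hrel g
        rw [hc] at h2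
        have h3 := congrFun (congrFun h2 0) 0
        simp only [Matrix.add_apply, Matrix.sub_apply, Matrix.mul_apply, Matrix.smul_apply,
          Matrix.one_apply, Fin.sum_univ_two, Matrix.zero_apply, smul_eq_mul] at h3
        simpa using h3
      have ha : a g = 2 * c := by
        have h3 : c * (2 * c - a g) = 0 := by
          rw [hdet] at hq
          linear_combination hq
        rcases mul_eq_zero.mp h3 with h4 | h4
        · exact absurd h4 hc0
        · exact (sub_eq_zero.mp h4).symm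
      rw [hc]
      constructor
      · rw [Matrix.trace_smul, Matrix.trace_one, Fintype.card_fin, ha]
        simp [mul_comm]
      · rw [Matrix.det_smul, Fintype.card_fin, Matrix.det_one, hdet]
        ring
    · push_neg at hs
      exact trace_det_of_quad (hrel g) hs

/-! ### The abstract statement -/

theorem exists_rep2 [IsAlgClosed k] [FiniteDimensional k V] [Nontrivial V]
    (Φ : Γ →* Module.End k V) (θ : Γ →* kˣ) (a : Γ → k) (H : QuadRel Φ θ a) :
    ∃ ρ₂ : Γ →* GL (Fin 2) k, (∀ g, Φ g = 1 → θ g = 1 → ρ₂ g = 1) ∧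
      ∀ g, ((ρ₂ g : GL (Fin 2) k) : Matrix (Fin 2) (Fin 2) k).trace = a g ∧
        ((ρ₂ g : GL (Fin 2) k) : Matrix (Fin 2) (Fin 2) k).det = ((θ g : kˣ) : k) := by
  by_cases hA : ∃ w : V, w ≠ 0 ∧ ∀ g, ∃ c : k, Φ g w = c • w
  · obtain ⟨w, hw, hev⟩ := hA
    exact exists_rep2_of_eigenvector H hw hev
  · obtain ⟨W, hW, hW0, hmin⟩ := exists_minimal_inv Φ
    have : Nontrivial W := Submodule.nontrivial_iff_ne_bot.mpr hW0
    have hno : ¬ ∃ w : W, w ≠ 0 ∧ ∀ g, ∃ c : k, resRep Φ W hW g w = c • w := by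
      rintro ⟨w, hw, hev⟩
      refine hA ⟨(w : V), fun h => hw (Subtype.ext h), fun g => ?_⟩
      obtain ⟨c, hc⟩ := hev g
      exact ⟨c, congrArg Subtype.val hc⟩
    obtain ⟨ρ₂, h1, h2⟩ := exists_rep2_of_irr (H.resRep W hW) (isIrr_resRep Φ W hW hmin) hno
    refine ⟨ρ₂, fun g hg _ => h1 g ?_, h2⟩
    ext w
    simp [hg]

end Fermat.Agent.S48.B.H46
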