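import Fermat.Agent.S48.B.Defs
import Fermat.Agent.S48.B.H46_SmallCore

/-!
# S48, mountain B, leaf B3 (helper46): `Stmt_SmallPieceL`

A representation `ρ : Γ → GL_r(k)` (`r > 0`, `k` algebraically closed) all of whose elements
satisfy `X² - a(g) X + θ(g) = 0` contains a two dimensional piece `ρ₂` with
`tr ρ₂(g) = a(g)`, `det ρ₂(g) = θ(g)`, trivial where `ρ` and `θ` are.

Proof (`H46_SmallCore.lean`): if there is a common eigenvector, with character `χ`, take
`χ ⊕ θ/χ`; otherwise a minimal invariant subspace is two dimensional (for an eigenvector `w` of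
a non-scalar `g`, `(g - λ')` maps it into `k w`), and on it Cayley–Hamilton identifies trace and
determinant.  The hypothesis `2 ≠ 0` is not used.
-/

set_option autoImplicit false

namespace Fermat.Agent.S48.B.H46

/-- **(B3) SmallPieceL.** -/
theorem stmt_SmallPieceL : Stmt_SmallPieceL := by
  intro k _ _ _ Γ _ r hr ρ θ a hrel
  have : Nonempty (Fin r) := ⟨⟨0, hr⟩⟩
  let E : Matrix (Fin r) (Fin r) k ≃ₐ[k] Module.End k (Fin r → k) := Matrix.toLinAlgEquiv'
  let Φ : Γ →* Module.End k (Fin r → k) :=
    (E : Matrix (Fin r) (Fin r) k →* Module.End k (Fin r → k)).comp ((Units.coeHom _).comp ρ)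
  have hΦ : ∀ g, Φ g = E ((ρ g : GL (Fin r) k) : Matrix (Fin r) (Fin r) k) := fun _ => rfl
  have H : QuadRel Φ θ a := by
    intro g v
    have h1 := congrArg E (hrel g)
    simp only [map_add, map_sub, map_mul, map_smul, map_one, map_zero] at h1
    have h2 := congrArg (fun f : Module.End k (Fin r → k) => f v) h1
    simp only [LinearMap.add_apply, LinearMap.sub_apply, Module.End.mul_apply,
      LinearMap.smul_apply, Module.End.one_apply, LinearMap.zero_apply] at h2
    rw [hΦ]
    have h3 := eq_neg_of_add_eq_zero_left h2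
    rw [sub_eq_iff_eq_add] at h3
    rw [h3]
    abel
  obtain ⟨ρ₂, h1, h2⟩ := exists_rep2 Φ θ a H
  refine ⟨ρ₂, fun g hg hθ => h1 g ?_ hθ, h2⟩
  rw [hΦ, hg]
  simp

end Fermat.Agent.S48.B.H46
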